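import Mathlib
import Fermat.Prelude.Def_ModularCurve_ArithmeticGalois
import Fermat.Agent.S18.NonSpecial
import Fermat.Agent.S18.NonSpecialAdapter
import Fermat.Agent.S18.A.RiemannBasic
import Fermat.Agent.S18.A.Instances
import Fermat.Agent.S18.A.Hurwitz

/-!
# PROJECT H (S17), leaf O8: the genus-zero case

If Riemann's theorem holds for `F / K` with genus `0` (`NonSpecial.RiemannHyp K F 0`), every
divisor of degree `0` is principal, so `Pic⁰ K F` is trivial; in particular, for the levels `N`
with `X₀(N)` of genus `0`, `J₀(N)` is trivial and its group of Galois-fixed points is finitely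
generated.  This is the branch `g = 0` of the case split in the final file of PROJECT H
(the heights argument uses `δ = 6 g + 2` with `g ≥ 1`).

* `isPrincipal_of_mem_riemannRochSpace` : `deg D = 0`, `0 ≠ f ∈ L(D)` ⟹ `D` principal
  (`D = div (f⁻¹)`).
* `isPrincipal_of_riemannHyp_zero` : `RiemannHyp K F 0`, `deg D = 0` ⟹ `D` principal.
* `subsingleton_pic0` : `RiemannHyp K F 0` ⟹ `Subsingleton (Pic0 K F)`.
* `fg_fixedPoints_of_subsingleton` : fixed points of any action on a trivial group are `FG`.
* `fg_of_riemannHyp_zero` (= `fg_of_genus_zero`) : `RiemannHyp ℚ̄ ℚ̄(X₀(N)) 0` ⟹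
  `AddGroup.FG (FixedPoints.addSubgroup G_ℚ (JZero N))` (the literal conclusion of S17).
* `genus_zero_or_pos` : the case split for the final file: genus `0`, or genus `g ≥ 1` with
  Riemann's theorem and the Hurwitz formula for `j` (shape agreed with helper3 #3438 (Z4)).
-/

set_option autoImplicit false

namespace Fermat.Agent.S17.GenusZero

open AlgebraicCurve Fermat.Agent.S18.NonSpecial Fermat.Agent.S18.NonSpecialAdapter
  Fermat.Agent.S18.CoreDefs

section Abstract

variable {K F : Type*} [Field K] [Field F] [Algebra K F]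

/-- A divisor of degree `0` with a nonzero section is principal: `D = div (f⁻¹)`. -/
theorem isPrincipal_of_mem_riemannRochSpace [HasPrincipalDivisors K F]
    (hdeg : ∀ v : Place K F, v.deg = 1) {D : Divisor K F} (hD : Divisor.degree D = 0)
    {f : F} (hf : f ≠ 0) (hmem : f ∈ riemannRochSpace D) : Divisor.IsPrincipal D := by
  obtain ⟨E, hE, hE0⟩ := HasPrincipalDivisors.exists_divisor (K := K) f hf
  have hmem' := mem_riemannRochSpace_iff.mp hmem
  -- `D + div f` is effective of degree `0`
  have hpos : 0 ≤ D + E := by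
    rw [Finsupp.le_def]
    intro v
    have h1 := (hmem' v).resolve_left hf
    rw [Finsupp.add_apply, hE v]
    simp only [Finsupp.coe_zero, Pi.zero_apply]
    omega
  have hdeg0 : Divisor.degree (D + E) = 0 := by rw [map_add, hD, hE0, add_zero]
  have hzero := Fermat.Agent.S18.A.Riemann.eq_zero_of_degree_eq_zero hdeg hpos hdeg0
  refine ⟨f⁻¹, inv_ne_zero hf, fun v => ?_⟩
  have h2 := DFunLike.congr_fun hzero v
  rw [Finsupp.add_apply, hE v] at h2
  simp only [Finsupp.coe_zero, Pi.zero_apply] at h2
  rw [Place.ord_inv]
  omega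

/-- In genus `0` every divisor of degree `0` is principal. -/
theorem isPrincipal_of_riemannHyp_zero [HasPrincipalDivisors K F] (h : RiemannHyp K F 0)
    {D : Divisor K F} (hD : Divisor.degree D = 0) : Divisor.IsPrincipal D := by
  obtain ⟨f, hf, hmem⟩ := riemannGe_of_riemannHyp h le_rfl D (by rw [hD]; simp)
  exact isPrincipal_of_mem_riemannRochSpace h.deg_one hD hf hmem

/-- In genus `0` the degree-zero divisor class group is trivial. -/
theorem subsingleton_pic0 [HasPrincipalDivisors K F] (h : RiemannHyp K F 0) :
    Subsingleton (Pic0 K F) := by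
  refine ⟨fun x y => ?_⟩
  have key : ∀ z : Pic0 K F, z = 0 := by
    intro z
    obtain ⟨D, rfl⟩ := Pic0.mk_surjective z
    refine (QuotientAddGroup.eq_zero_iff D).mpr ?_
    rw [AddSubgroup.mem_addSubgroupOf]
    exact isPrincipal_of_riemannHyp_zero h (Divisor.mem_degZero.mp D.2)
  rw [key x, key y]

end Abstract

/-- The fixed points of any action on a trivial additive group are finitely generated. -/
theorem fg_fixedPoints_of_subsingleton (G M : Type*) [Monoid G] [AddCommGroup M]
    [DistribMulAction G M] [Subsingleton M] : AddGroup.FG ↥(FixedPoints.addSubgroup G M) := by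
  have : Finite ↥(FixedPoints.addSubgroup G M) := Finite.of_injective _ Subtype.val_injective
  exact AddGroup.fg_of_finite

section X0

open ModularCurve

local notation "Kb" => AlgebraicClosure ℚ
local notation "GQ" => (AlgebraicClosure ℚ ≃ₐ[ℚ] AlgebraicClosure ℚ)

variable (N : ℕ) [NeZero N]

/-- genus `0` ⟹ `J₀(N)` is trivial -/
theorem subsingleton_jZero (h : RiemannHyp Kb (modularFunctionFieldBar N) 0) :
    Subsingleton (JZero N) :=
  haveI := Fermat.Agent.S18.A.Instances.hasPrincipalDivisors_bar N
  subsingleton_pic0 h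

/-- **The genus-zero branch of S17**: if `ℚ̄(X₀(N))` has genus `0` (in the sense of Riemann's
theorem `RiemannHyp … 0`), the Galois-fixed points of `J₀(N)` are finitely generated. -/
theorem fg_of_riemannHyp_zero (h : RiemannHyp Kb (modularFunctionFieldBar N) 0) :
    AddGroup.FG ↥(FixedPoints.addSubgroup GQ (JZero N)) :=
  haveI := subsingleton_jZero N h
  fg_fixedPoints_of_subsingleton GQ (JZero N)

/-- the same statement under the name used in helper3's #3438 (Z3) -/
theorem fg_of_genus_zero (h0 : RiemannHyp Kb (modularFunctionFieldBar N) 0) :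
    AddGroup.FG ↥(FixedPoints.addSubgroup GQ (JZero N)) :=
  fg_of_riemannHyp_zero N h0

/-- **The case split for the final file**: genus `0`, or genus `g ≥ 1` with Riemann's theorem and
the Hurwitz formula for `j`. -/
theorem genus_zero_or_pos :
    RiemannHyp Kb (modularFunctionFieldBar N) 0 ∨
    ∃ g : ℕ, 1 ≤ g ∧ RiemannHyp Kb (modularFunctionFieldBar N) g ∧
      Fermat.Agent.S18.A.Defs.HurwitzFormula (Fermat.Agent.S18.A.Instances.isFF_jgen N)
        (Fermat.Agent.S18.A.Instances.isSeparable_jgen N) g := by
  obtain ⟨g, hR, hH⟩ := Fermat.Agent.S18.A.Hurwitz.exists_genus_FL N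
  rcases Nat.eq_zero_or_pos g with h | h
  · left
    rw [h] at hR
    exact hR
  · exact Or.inr ⟨g, h, hR, hH⟩

end X0

end Fermat.Agent.S17.GenusZero
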