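import Mathlib
import Fermat.Agent.S18
import Fermat.Agent.S19.BaseX0

/-!
# S17 (helper22), slice (II-a): the local input of weak Mordell–Weil at `X₀(N)`

For a prime `p ∤ N`, a valuation subring `A` of `ℚ̄` over `p` and `J1X0` the kernel of reduction:

* `reductionModL_eq_zero_of_mem_J1` : the classes of `J1X0` reduce to `0`;
* `eq_zero_of_mem_J1_of_nsmul` : `J1X0` has no `m`-torsion, `p ∤ m` (= S18);
* `inertia_fixes_division_point` : if `σ` lies in the inertia group at `A` and
  `m • (σ • y - y) = 0` with `p ∤ m`, then `σ • y = y`;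
* `inertia_fixes_of_nsmul_fixed` : in particular, if `m • y` is fixed by `σ`.
-/

set_option autoImplicit false
set_option synthInstance.maxHeartbeats 400000
set_option linter.unusedSectionVars false
set_option linter.style.haveILetI false

noncomputable section

namespace Fermat.Agent.S17.KummerUnram

open AlgebraicCurve ModularCurve IsLocalRing
open Fermat.Agent.S19.FrameX0 Fermat.Agent.S19.BaseX0 Fermat.Agent.S19.Chart

local notation "Kb" => AlgebraicClosure ℚ

variable {ℓ : ℕ} [Fact ℓ.Prime] (N : ℕ) [NeZero N] (A : ValuationSubring Kb)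
variable (hA : A.LiesOverPrime ℓ) (hℓN : ¬ ℓ ∣ N)

/-- the classes of the kernel of reduction `J1X0` reduce to `0` under the Prelude's reduction map -/
theorem reductionModL_eq_zero_of_mem_J1 {z : JZero N} (hz : z ∈ J1X0 N A hA hℓN) :
    reductionModL A N z = 0 := by
  obtain ⟨D, rfl, hD⟩ := hz
  rw [reductionModL_mk (reductionInputs N A hA hℓN) D]
  refine (QuotientAddGroup.eq_zero_iff _).mpr ?_
  rw [AddSubgroup.mem_addSubgroupOf, coe_reductionDegZeroAlong]
  exact hD

/-- the kernel of reduction has no prime-to-`ℓ` torsion (S18) -/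
theorem eq_zero_of_mem_J1_of_nsmul {m : ℕ} (hm : ¬ ℓ ∣ m) {z : JZero N}
    (hz : z ∈ J1X0 N A hA hℓN) (hmz : m • z = 0) : z = 0 :=
  Fermat.Agent.S18.result N hℓN A hA (reductionInputs N A hA hℓN) m hm z hmz
    (reductionModL_eq_zero_of_mem_J1 N A hA hℓN hz)

include hA hℓN in
/-- **inertia fixes the division points**: `σ • y - y` lies in the kernel of reduction, which has
no prime-to-`ℓ` torsion -/
theorem inertia_fixes_division_point {m : ℕ} (hm : ¬ ℓ ∣ m) {σ : Kb ≃ₐ[ℚ] Kb}
    (hσ : σ ∈ A.inertiaSubgroupIn ℚ) (y : JZero N) (h : m • (σ • y - y) = 0) : σ • y = y :=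
  sub_eq_zero.mp
    (eq_zero_of_mem_J1_of_nsmul N A hA hℓN hm (J1_inertia N A hA hℓN hσ y) h)

include hA hℓN in
/-- if `m • y` is fixed by `σ` in the inertia group at `A` (`ℓ ∤ m N`), so is `y` -/
theorem inertia_fixes_of_nsmul_fixed {m : ℕ} (hm : ¬ ℓ ∣ m) {σ : Kb ≃ₐ[ℚ] Kb}
    (hσ : σ ∈ A.inertiaSubgroupIn ℚ) (y : JZero N) (h : σ • (m • y) = m • y) : σ • y = y := by
  refine inertia_fixes_division_point N A hA hℓN hm hσ y ?_
  have h1 : σ • (m • y) = m • (σ • y) :=
    map_nsmul (DistribSMul.toAddMonoidHom (JZero N) σ) m y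
  rw [nsmul_sub, ← h1, h, sub_self]

end Fermat.Agent.S17.KummerUnram
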