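import Mathlib

/-!
# S17 (helper22), slice (II-b): weak Mordell–Weil, the abstract group-theoretic step

`G` a group acting additively on an abelian group `J`, `Γ = J^G` the fixed points, `m ≥ 1` with
`J[m]` finite.  If every element of `Γ` is divisible by `m` in `J` and ONE subgroup `H ≤ G` of finite
index fixes every `y` with `m • y ∈ Γ`, then `m • Γ` has finite index in `Γ`
(`finiteIndex_range_nsmul`, in the shape of the hypothesis `H₁` of Mathlib's
`AddCommGroup.fg_of_descent`).
-/

set_option autoImplicit false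

namespace Fermat.Agent.S17.WeakMWAbstract

variable {G J : Type*} [Group G] [AddCommGroup J] [DistribMulAction G J]

/-- the Kummer cocycle `σ ↦ σ • y - y` of an `m`-division point of a fixed point, with values in
`J[m]` -/
def kummer (m : ℕ) (y : J) (hy : m • y ∈ FixedPoints.addSubgroup G J) (σ : G) :
    {t : J // m • t = 0} :=
  ⟨σ • y - y, by
    have h1 : σ • (m • y) = m • y := hy σ
    have h2 : σ • (m • y) = m • (σ • y) := map_nsmul (DistribSMul.toAddMonoidHom J σ) m y
    rw [nsmul_sub, ← h2, h1, sub_self]⟩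

theorem kummer_mul_of_fixed (m : ℕ) (y : J) (hy : m • y ∈ FixedPoints.addSubgroup G J)
    {τ : G} (hτ : τ • y = y) (σ : G) : kummer m y hy (σ * τ) = kummer m y hy σ := by
  apply Subtype.ext
  show (σ * τ) • y - y = σ • y - y
  rw [mul_smul, hτ]

/-- **weak Mordell–Weil, abstract form** -/
theorem finiteIndex_range_nsmul (m : ℕ) [Finite {t : J // m • t = 0}] (H : Subgroup G)
    [H.FiniteIndex]
    (hdiv : ∀ x ∈ FixedPoints.addSubgroup G J, ∃ y : J, m • y = x)
    (hfix : ∀ y : J, m • y ∈ FixedPoints.addSubgroup G J → ∀ τ ∈ H, τ • y = y) :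
    (nsmulAddMonoidHom (α := ↥(FixedPoints.addSubgroup G J)) m).range.FiniteIndex := by
  classical
  set Γ := FixedPoints.addSubgroup G J with hΓ
  set R : AddSubgroup Γ := (nsmulAddMonoidHom (α := ↥Γ) m).range with hR
  -- division points
  have hdiv' : ∀ x : Γ, ∃ y : J, m • y = (x : J) := fun x => hdiv x x.2
  choose y hy using hdiv'
  have hyΓ : ∀ x : Γ, m • y x ∈ Γ := fun x => by rw [hy x]; exact x.2
  -- the Kummer map, on cosets of `H`
  let κ : Γ → (G ⧸ H → {t : J // m • t = 0}) := fun x =>
    Quotient.lift (fun σ : G => kummer m (y x) (hyΓ x) σ) (by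
      intro a b hab
      have hab' : a⁻¹ * b ∈ H := QuotientGroup.leftRel_apply.mp hab
      have hb : b = a * (a⁻¹ * b) := by group
      show kummer m (y x) (hyΓ x) a = kummer m (y x) (hyΓ x) b
      rw [hb, kummer_mul_of_fixed m (y x) (hyΓ x) (hfix (y x) (hyΓ x) _ hab')])
  have hκ : ∀ x x' : Γ, κ x = κ x' → (QuotientAddGroup.mk x : Γ ⧸ R) = QuotientAddGroup.mk x' := by
    intro x x' h
    have h1 : ∀ σ : G, σ • y x - y x = σ • y x' - y x' := by
      intro σ
      have := congrFun h (QuotientGroup.mk σ)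
      exact congrArg Subtype.val this
    have hfixed : y x - y x' ∈ Γ := by
      intro σ
      have h2 := h1 σ
      rw [smul_sub]
      have h3 : σ • y x - σ • y x' = (σ • y x - y x) - (σ • y x' - y x') + (y x - y x') := by abel
      rw [h3, h2, sub_self, zero_add]
    rw [QuotientAddGroup.eq]
    refine ⟨-⟨y x - y x', hfixed⟩, ?_⟩
    apply Subtype.ext
    show m • (-(y x - y x')) = -(x : J) + (x' : J)
    rw [neg_sub, nsmul_sub, hy, hy]
    abel
  haveI : Finite (G ⧸ H) := Subgroup.finite_quotient_of_finiteIndex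
  haveI : Finite (Γ ⧸ R) := by
    let g : Set.range κ → Γ ⧸ R := fun f => QuotientAddGroup.mk f.2.choose
    have hg : Function.Surjective g := by
      intro q
      obtain ⟨x, rfl⟩ := QuotientAddGroup.mk_surjective q
      refine ⟨⟨κ x, x, rfl⟩, ?_⟩
      exact hκ _ _ (Set.mem_range.mp (⟨x, rfl⟩ : κ x ∈ Set.range κ)).choose_spec
    exact Finite.of_surjective g hg
  exact AddSubgroup.finiteIndex_of_finite_quotient

end Fermat.Agent.S17.WeakMWAbstract
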