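import Mathlib
import Fermat.Agent.S17.KummerUnram
import Fermat.Agent.S17.WeakMWAbstract
import Fermat.Agent.S30.Arith.Smooth
import Fermat.Agent.S30.Descent.PhiDictThm

/-!
# S17 (helper22), slice (II): weak Mordell–Weil for `J₀(N)(ℚ)`, reduced to two inputs

`Γ = J₀(N)(ℚ̄)^{G_ℚ}`.  For `m ≠ 0`, the subgroup `m Γ` has finite index in `Γ`
(`finiteIndex_range_nsmul`, the hypothesis `H₁` of Mathlib's `AddCommGroup.fg_of_descent`), PROVIDED

* `hdiv` (slice (I)) : every point of `Γ` is divisible by `m` in `J₀(N)(ℚ̄)`;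
* `hF` (slice (F), pure algebraic number theory) : `FinExp E₀ m S` for every number field
  `E₀ ⊆ ℚ̄` and `S` the set of primes dividing `m N` : ONE number field `M` whose absolute Galois
  group is contained in every open subgroup `U ≤ G_{E₀}` with `G_{E₀}/U` abelian of exponent `m`
  and containing the inertia groups (inside `G_{E₀}`) at all primes outside `S`.

Everything else is proved here: the Kummer map of a division point `y` of a rational point is a
homomorphism on `G_{E₀}` (`E₀` a field of definition of `J₀(N)[m]`), its kernel is open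
(`S30/Arith/Smooth.exists_finite_fixing`) and contains the inertia groups at `p ∤ m N`
(`KummerUnram.inertia_fixes_of_nsmul_fixed`: `BaseX0.J1_inertia` + S18).
-/

set_option autoImplicit false
set_option synthInstance.maxHeartbeats 400000
set_option linter.unusedSectionVars false
set_option linter.style.haveILetI false

noncomputable section

namespace Fermat.Agent.S17.WeakMW

open ModularCurve

local notation "Kb" => AlgebraicClosure ℚ
local notation "GQ" => (AlgebraicClosure ℚ ≃ₐ[ℚ] AlgebraicClosure ℚ)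

/-- **(F)**: finiteness of the maximal abelian extension of exponent `m` of `E₀` unramified outside
`S`, in the Prelude's inertia-group language: ONE number field `M` such that `G_M` is contained
in every open subgroup `U ≤ G_{E₀}` containing the commutators and the `m`-th powers of `G_{E₀}` and
the inertia groups (inside `G_{E₀}`) at the primes outside `S`. -/
def FinExp (E₀ : IntermediateField ℚ Kb) (m : ℕ) (S : Set ℕ) : Prop :=
  ∃ M : IntermediateField ℚ Kb, FiniteDimensional ℚ M ∧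
    ∀ U : Subgroup GQ, U ≤ E₀.fixingSubgroup →
      (∀ σ ∈ E₀.fixingSubgroup, ∀ τ ∈ E₀.fixingSubgroup, σ * τ * σ⁻¹ * τ⁻¹ ∈ U) →
      (∀ σ ∈ E₀.fixingSubgroup, σ ^ m ∈ U) →
      (∃ E' : IntermediateField ℚ Kb, FiniteDimensional ℚ E' ∧ E'.fixingSubgroup ≤ U) →
      (∀ p : ℕ, p.Prime → p ∉ S → ∀ A : ValuationSubring Kb, A.LiesOverPrime p →
        ∀ σ ∈ A.inertiaSubgroupIn ℚ, σ ∈ E₀.fixingSubgroup → σ ∈ U) →
      M.fixingSubgroup ≤ U

variable (N : ℕ) [NeZero N]

section Kummer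

variable {N}
variable {m : ℕ} {E₀ : IntermediateField ℚ Kb}
  (hE₀ : ∀ σ ∈ E₀.fixingSubgroup, ∀ t : JZero N, m • t = 0 → σ • t = t)
  (y : JZero N) (hy : ∀ σ : GQ, σ • (m • y) = m • y)

include hy in
theorem nsmul_smul_sub (σ : GQ) : m • (σ • y - y) = 0 := by
  have h2 : σ • (m • y) = m • (σ • y) := map_nsmul (DistribSMul.toAddMonoidHom (JZero N) σ) m y
  rw [nsmul_sub, ← h2, hy σ, sub_self]

include hE₀ hy in
/-- the Kummer map is additive on `G_{E₀}` -/
theorem kummer_mul {σ : GQ} (hσ : σ ∈ E₀.fixingSubgroup) (τ : GQ) :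
    (σ * τ) • y - y = (σ • y - y) + (τ • y - y) := by
  have h1 : σ • (τ • y - y) = τ • y - y := hE₀ σ hσ _ (nsmul_smul_sub y hy τ)
  rw [smul_sub] at h1
  rw [mul_smul]
  have h2 : σ • τ • y - y = (σ • τ • y - σ • y) + (σ • y - y) := by abel
  rw [h2, h1]
  abel

/-- the Kummer map as a homomorphism `G_{E₀} → J₀(N)` (written multiplicatively) -/
def kummerHom : ↥E₀.fixingSubgroup →* Multiplicative (JZero N) where
  toFun σ := Multiplicative.ofAdd ((σ : GQ) • y - y)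
  map_one' := by
    show Multiplicative.ofAdd ((1 : GQ) • y - y) = 1
    rw [one_smul, sub_self]
    rfl
  map_mul' σ τ := by
    show Multiplicative.ofAdd (((σ : GQ) * (τ : GQ)) • y - y) =
      Multiplicative.ofAdd ((σ : GQ) • y - y) * Multiplicative.ofAdd ((τ : GQ) • y - y)
    rw [kummer_mul hE₀ y hy σ.2 τ]
    rfl

theorem kummerHom_apply (σ : ↥E₀.fixingSubgroup) :
    kummerHom hE₀ y hy σ = Multiplicative.ofAdd ((σ : GQ) • y - y) := rfl

theorem kummerHom_eq_one_iff (σ : ↥E₀.fixingSubgroup) :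
    kummerHom hE₀ y hy σ = 1 ↔ (σ : GQ) • y = y := by
  rw [kummerHom_apply]
  constructor
  · intro h
    have h1 : (σ : GQ) • y - y = 0 := h
    exact sub_eq_zero.mp h1
  · intro h
    rw [h, sub_self]
    rfl

/-- the stabiliser of `y` in `G_{E₀}` -/
def stab : Subgroup GQ := (kummerHom hE₀ y hy).ker.map E₀.fixingSubgroup.subtype

theorem mem_stab_iff {σ : GQ} :
    σ ∈ stab hE₀ y hy ↔ σ ∈ E₀.fixingSubgroup ∧ σ • y = y := by
  constructor
  · rintro ⟨τ, hτ, rfl⟩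
    exact ⟨τ.2, (kummerHom_eq_one_iff hE₀ y hy τ).mp hτ⟩
  · rintro ⟨h1, h2⟩
    exact ⟨⟨σ, h1⟩, (kummerHom_eq_one_iff hE₀ y hy ⟨σ, h1⟩).mpr h2, rfl⟩

end Kummer

/-- **Weak Mordell–Weil for `J₀(N)(ℚ)`**, from divisibility (I) and the finiteness (F). -/
theorem finiteIndex_range_nsmul {m : ℕ} (hm : m ≠ 0)
    (hdiv : ∀ x ∈ FixedPoints.addSubgroup GQ (JZero N), ∃ y : JZero N, m • y = x)
    (hF : ∀ E₀ : IntermediateField ℚ Kb, FiniteDimensional ℚ E₀ →
      FinExp E₀ m {p : ℕ | p ∣ m * N}) :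
    (nsmulAddMonoidHom (α := ↥(FixedPoints.addSubgroup GQ (JZero N))) m).range.FiniteIndex := by
  classical
  have hfinT := Fermat.Agent.S30.Descent.PhiDictThm.finite_torsion N hm
  haveI : Finite {t : JZero N // m • t = 0} := hfinT.to_subtype
  obtain ⟨E₀, hE₀fin, hE₀⟩ := Fermat.Agent.S30.Arith.Smooth.exists_finite_fixing_torsion N m hfinT
  have hE₀' : ∀ σ ∈ E₀.fixingSubgroup, ∀ t : JZero N, m • t = 0 → σ • t = t := by
    intro σ hσ t ht
    refine hE₀ σ (fun a ha => ?_) t ht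
    exact (IntermediateField.mem_fixingSubgroup_iff E₀ σ).mp hσ a ha
  obtain ⟨M, hMfin, hM⟩ := hF E₀ hE₀fin
  haveI : M.fixingSubgroup.FiniteIndex := by
    haveI : Finite (GQ ⧸ M.fixingSubgroup) :=
      Subgroup.quotient_finite_of_isOpen _ M.fixingSubgroup_isOpen
    exact Subgroup.finiteIndex_of_finite_quotient
  refine Fermat.Agent.S17.WeakMWAbstract.finiteIndex_range_nsmul m M.fixingSubgroup hdiv ?_
  intro y hy τ hτ
  have hy' : ∀ σ : GQ, σ • (m • y) = m • y := fun σ => hy σ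
  have hU := hM (stab hE₀' y hy') ?_ ?_ ?_ ?_ ?_ hτ
  · exact ((mem_stab_iff hE₀' y hy').mp hU).2
  · intro σ hσ
    exact ((mem_stab_iff hE₀' y hy').mp hσ).1
  · -- commutators
    intro σ hσ τ' hτ'
    have hmem : σ * τ' * σ⁻¹ * τ'⁻¹ ∈ E₀.fixingSubgroup :=
      mul_mem (mul_mem (mul_mem hσ hτ') (inv_mem hσ)) (inv_mem hτ')
    refine (mem_stab_iff hE₀' y hy').mpr ⟨hmem, ?_⟩
    refine (kummerHom_eq_one_iff hE₀' y hy' ⟨_, hmem⟩).mp ?_
    have : (⟨σ * τ' * σ⁻¹ * τ'⁻¹, hmem⟩ : ↥E₀.fixingSubgroup) =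
        (⟨σ, hσ⟩ : ↥E₀.fixingSubgroup) * ⟨τ', hτ'⟩ * (⟨σ, hσ⟩)⁻¹ * (⟨τ', hτ'⟩)⁻¹ := rfl
    rw [this, map_mul, map_mul, map_mul, map_inv, map_inv]
    rw [mul_right_comm _ _ ((kummerHom hE₀' y hy') ⟨σ, hσ⟩)⁻¹, mul_inv_cancel, one_mul,
      mul_inv_cancel]
  · -- `m`-th powers
    intro σ hσ
    refine (mem_stab_iff hE₀' y hy').mpr ⟨pow_mem hσ m, ?_⟩
    refine (kummerHom_eq_one_iff hE₀' y hy' ⟨_, pow_mem hσ m⟩).mp ?_
    have : (⟨σ ^ m, pow_mem hσ m⟩ : ↥E₀.fixingSubgroup) = (⟨σ, hσ⟩ : ↥E₀.fixingSubgroup) ^ m := rfl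
    rw [this, map_pow, kummerHom_apply, ← ofAdd_nsmul, nsmul_smul_sub y hy' σ]
    rfl
  · -- open
    obtain ⟨E₁, hE₁fin, hE₁⟩ := Fermat.Agent.S30.Arith.Smooth.exists_finite_fixing N y
    haveI := hE₀fin
    haveI := hE₁fin
    refine ⟨E₀ ⊔ E₁, IntermediateField.finiteDimensional_sup E₀ E₁, ?_⟩
    intro σ hσ
    rw [IntermediateField.fixingSubgroup_sup] at hσ
    refine (mem_stab_iff hE₀' y hy').mpr ⟨hσ.1, hE₁ σ (fun a ha => ?_)⟩
    exact (IntermediateField.mem_fixingSubgroup_iff E₁ σ).mp hσ.2 a ha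
  · -- inertia
    intro p hp hpS A hA σ hσ hσE
    have hpS' : ¬ p ∣ m * N := hpS
    haveI : Fact p.Prime := ⟨hp⟩
    have hpm : ¬ p ∣ m := fun h => hpS' (Dvd.dvd.mul_right h N)
    have hpN : ¬ p ∣ N := fun h => hpS' (Dvd.dvd.mul_left h m)
    refine (mem_stab_iff hE₀' y hy').mpr ⟨hσE, ?_⟩
    exact Fermat.Agent.S17.KummerUnram.inertia_fixes_of_nsmul_fixed N A hA hpN hpm hσ y (hy' σ)

end Fermat.Agent.S17.WeakMW
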